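/-
P-DS / ES1A-CHAR (row 567, helper4): generic form (arbitrary model `X`) of the identity-theorem
part of the Kummer character construction; port of `Fermat.Agent.H76.EsACharCore`, `EsAChar`,
`EsACharH23`.

* `charOfRoot X : Fermat.Agent.H23.ES1A.CharOfRootStatement X`;
* `charOfRootK X : Fermat.Agent.H23.ES1A.CharOfRootStatementK X`;
* `kummerUnique X : Fermat.Agent.H23.ES1A.KummerUniqueStatement X`.

No hypothesis on the model is needed.
-/
import Fermat.Agent.H23.ES1A.KummerDefs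
import Fermat.Agent.H76.EsACharCore

set_option autoImplicit false

noncomputable section

open UpperHalfPlane
open scoped MatrixGroups Manifold Topology

namespace Fermat.Agent.H4.ES1A

open Fermat.Agent.H76 (esaChar_exists_root_of_unity esaChar_mdiff_comp_smul esaChar_const_unique)

/-- If `g ≠ 0` is holomorphic on `ℍ` and `g ^ m` is `Γ`-invariant then `g` transforms by a
character of `Γ` with values in the `m`-th roots of unity (`Γ` an arbitrary subgroup of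
`SL(2, ℤ)`). -/
theorem char_exists_character (Γ : Subgroup SL(2, ℤ)) {m : ℕ} (hm : 0 < m) {g : ℍ → ℂ}
    (hg : MDiff g) (hg0 : g ≠ 0)
    (hinv : ∀ (γ : ↥Γ) (z : ℍ), g ((γ : SL(2, ℤ)) • z) ^ m = g z ^ m) :
    ∃ χ : ↥Γ →* ℂˣ, χ ^ m = 1 ∧
      ∀ (γ : ↥Γ) (z : ℍ), g ((γ : SL(2, ℤ)) • z) = ((χ γ : ℂˣ) : ℂ) * g z := by
  -- for every `γ` there is a root of unity `ζ` with `g ∘ γ = ζ g`
  have hex : ∀ γ : ↥Γ, ∃ ζ : ℂ, ζ ^ m = 1 ∧
      ∀ z : ℍ, g ((γ : SL(2, ℤ)) • z) = ζ * g z := fun γ =>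
    esaChar_exists_root_of_unity hm hg (esaChar_mdiff_comp_smul hg (γ : SL(2, ℤ)))
      (fun z => hinv γ z)
  choose c hc1 hc2 using hex
  have hone : c 1 = 1 := by
    refine esaChar_const_unique hg0 (fun z => ?_)
    rw [← hc2 1 z, one_mul]
    simp
  have hmul : ∀ γ γ' : ↥Γ, c (γ * γ') = c γ * c γ' := by
    intro γ γ'
    refine esaChar_const_unique hg0 (fun z => ?_)
    rw [← hc2 (γ * γ') z, Subgroup.coe_mul, mul_smul, hc2 γ, hc2 γ', mul_assoc]
  let χ₀ : ↥Γ →* ℂ :=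
    { toFun := c, map_one' := hone, map_mul' := hmul }
  refine ⟨χ₀.toHomUnits, ?_, fun γ z => ?_⟩
  · ext γ
    rw [MonoidHom.pow_apply, Units.val_pow_eq_pow_val, MonoidHom.coe_toHomUnits]
    exact (hc1 γ).trans (by simp)
  · rw [MonoidHom.coe_toHomUnits]
    exact hc2 γ z

/-- The character by which a nonzero function transforms is unique. -/
theorem char_character_unique (Γ : Subgroup SL(2, ℤ)) {g : ℍ → ℂ} (hg0 : g ≠ 0)
    {χ χ' : ↥Γ →* ℂˣ}
    (h : ∀ (γ : ↥Γ) (z : ℍ), g ((γ : SL(2, ℤ)) • z) = ((χ γ : ℂˣ) : ℂ) * g z)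
    (h' : ∀ (γ : ↥Γ) (z : ℍ), g ((γ : SL(2, ℤ)) • z) = ((χ' γ : ℂˣ) : ℂ) * g z) :
    χ = χ' := by
  ext γ
  exact esaChar_const_unique hg0 (fun z => by rw [← h γ z, h' γ z])

/-- If `g' = ζ g` with `ζ ≠ 0` and `g ≠ 0`, and `g`, `g'` transform by `χ`, `χ'`, then
`χ = χ'`. -/
theorem char_character_unique_of_const (Γ : Subgroup SL(2, ℤ)) {g g' : ℍ → ℂ} (hg0 : g ≠ 0)
    {ζ : ℂ} (hζ0 : ζ ≠ 0) (hζ : ∀ z, g' z = ζ * g z) {χ χ' : ↥Γ →* ℂˣ}
    (h : ∀ (γ : ↥Γ) (z : ℍ), g ((γ : SL(2, ℤ)) • z) = ((χ γ : ℂˣ) : ℂ) * g z)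
    (h' : ∀ (γ : ↥Γ) (z : ℍ), g' ((γ : SL(2, ℤ)) • z) = ((χ' γ : ℂˣ) : ℂ) * g' z) :
    χ = χ' := by
  refine char_character_unique Γ hg0 h (fun γ z => ?_)
  have h1 := h' γ z
  rw [hζ, hζ] at h1
  have h2 : ζ * g ((γ : SL(2, ℤ)) • z) = ζ * (((χ' γ : ℂˣ) : ℂ) * g z) := by
    rw [h1]; ring
  exact mul_left_cancel₀ hζ0 h2

/-- **[CHAR]** (generic): a nonzero holomorphic function whose `m`-th power is `Γ`-invariant
transforms by a character of exponent `m`; the character is unique. -/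
theorem charOfRoot (X : Fermat.Agent.H23.ES1A.Model) :
    Fermat.Agent.H23.ES1A.CharOfRootStatement X := by
  intro m hm G hG hG0
  refine ⟨fun hinv => ?_, fun χ χ' h h' => char_character_unique X.Γ hG0 h h'⟩
  exact char_exists_character X.Γ hm hG hG0 (fun γ z => hinv (γ : SL(2, ℤ)) γ.2 z)

/-- **A-CHAR** (generic): if `g ^ m` is `Γ`-invariant then `g` transforms by a character with
values in the `m`-th roots of unity. -/
theorem charOfRootK (X : Fermat.Agent.H23.ES1A.Model) :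
    Fermat.Agent.H23.ES1A.CharOfRootStatementK X :=
  fun _ hm _ hg hg0 hinv => char_exists_character X.Γ hm hg hg0 hinv

/-- **A-UNIQ** (generic): the Kummer character is unique. -/
theorem kummerUnique (X : Fermat.Agent.H23.ES1A.Model) :
    Fermat.Agent.H23.ES1A.KummerUniqueStatement X := by
  rintro m hm f hf χ χ' ⟨g, hg, hgf, hgχ⟩ ⟨g', hg', hgf', hgχ'⟩
  have hpow : g' ^ m = g ^ m := hgf'.unique_left hgf
  have hg0 : g ≠ 0 := by
    rintro rfl
    rw [zero_pow hm.ne'] at hgf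
    exact hf (hgf.unique_right Fermat.Agent.H44.laurentRel_zero)
  obtain ⟨ζ, hζ1, hζ⟩ := esaChar_exists_root_of_unity hm hg hg' (fun z => congrFun hpow z)
  have hζ0 : ζ ≠ 0 := by
    rintro rfl
    rw [zero_pow hm.ne'] at hζ1
    exact zero_ne_one hζ1
  exact char_character_unique_of_const X.Γ hg0 hζ0 hζ hgχ hgχ'

end Fermat.Agent.H4.ES1A

end
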